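import Fermat.Agent.Ribet.H558.DK
import Fermat.Agent.S33.H849.S2Ready

/-!
# S33 / row 38 — the leaf DK of the (S2)-chain at READY levels, in the frozen form (helper558)

`deepKummerReady : S33.H849.DeepKummerReadyStatement` (VERBATIM, unconditional), from
`Ribet.H558.deepKummerReady_h558` (`Ribet/H558/{DKLevel,DK}.lean`).
-/

set_option autoImplicit false

namespace Fermat.Agent.S33.H558

/-- **DK at READY levels** — `S33.H849.DeepKummerReadyStatement`, verbatim. -/
theorem deepKummerReady : Fermat.Agent.S33.H849.DeepKummerReadyStatement :=
  Fermat.Agent.Ribet.H558.deepKummerReady_h558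

end Fermat.Agent.S33.H558
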