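import Fermat.Agent.S33.H849.S2Ready
import Fermat.Agent.Ribet.H573.WeakApprox
import Fermat.Agent.Ribet.H279.NormContr
import Fermat.Agent.S33.H558.DKReady

/-!
# S33: **(S2) at READY levels, UNCONDITIONAL** (helper558)

`s2Ready : S33.H92.S2ReadyStatement` from the three leaves of the (S2)-chain, all on main:
SL `Ribet.H573.splitLift`, NC `Ribet.H279.NC.normContr`, DK `S33.H558.deepKummerReady`.
-/

set_option autoImplicit false

namespace Fermat.Agent.S33.H558

/-- **(S2) at READY levels**, unconditional. -/
theorem s2Ready : Fermat.Agent.S33.H92.S2ReadyStatement :=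
  Fermat.Agent.S33.H849.s2Ready_of_chain Fermat.Agent.Ribet.H573.splitLift
    Fermat.Agent.Ribet.H279.NC.normContr deepKummerReady

end Fermat.Agent.S33.H558
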